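import Fermat.Agent.Root.SummaryThreeSquares

/-!
# Cauchy's lemma

For odd `a` and `b` with `b ^ 2 < 4 a` and `3 a < b ^ 2 + 2 b + 4` there are four natural numbers
with sum `b` and sum of squares `a`.
-/

set_option autoImplicit false

noncomputable section

namespace FA.PolygonalNumbers

/-- **Cauchy's lemma.** -/
theorem cauchy_lemma {a b : ℤ} (ha : Odd a) (hb : Odd b) (hb0 : 0 < b) (h1 : b ^ 2 < 4 * a)
    (h2 : 3 * a < b ^ 2 + 2 * b + 4) :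
    ∃ s t u v : ℕ, (s : ℤ) + t + u + v = b ∧ (s : ℤ) ^ 2 + t ^ 2 + u ^ 2 + v ^ 2 = a := by
  obtain ⟨p, rfl⟩ := ha
  obtain ⟨q, rfl⟩ := hb
  obtain ⟨l, hl⟩ := Int.even_mul_succ_self q
  have hsq : (2 * q + 1) ^ 2 = 8 * l + 1 := by linear_combination 4 * hl
  obtain ⟨k, hk⟩ := Int.eq_ofNat_of_zero_le (show 0 ≤ p - l by rw [hsq] at h1; omega)
  obtain ⟨x, y, z, hx, hy, hz, e⟩ := FA.Summary.three_odd_squares k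
  have hsum : |x| + |y| + |z| < 2 * q + 1 + 4 := by
    nlinarith [sq_abs x, sq_abs y, sq_abs z, sq_nonneg (|x| - |y|), sq_nonneg (|y| - |z|),
      sq_nonneg (|x| - |z|), abs_nonneg x, abs_nonneg y, abs_nonneg z]
  obtain ⟨w, hw, hwabs, hw4⟩ :
      ∃ w, w ^ 2 = z ^ 2 ∧ |w| = |z| ∧ (4 : ℤ) ∣ 2 * q + 1 + x + y + w := by
    obtain ⟨x', rfl⟩ := hx
    obtain ⟨y', rfl⟩ := hy
    obtain ⟨z', rfl⟩ := hz
    by_cases h4 : (4 : ℤ) ∣ 2 * q + 1 + (2 * x' + 1) + (2 * y' + 1) + (2 * z' + 1)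
    · exact ⟨_, rfl, rfl, h4⟩
    · exact ⟨-(2 * z' + 1), neg_sq _, abs_neg _, by omega⟩
  have hx2 : x % 2 = 1 := Int.odd_iff.1 hx
  have hy2 : y % 2 = 1 := Int.odd_iff.1 hy
  have hw2 : w % 2 = 1 := by
    obtain ⟨j, hj⟩ := hw4
    omega
  obtain ⟨hxl, hxu⟩ := abs_le.1 (le_refl |x|)
  obtain ⟨hyl, hyu⟩ := abs_le.1 (le_refl |y|)
  obtain ⟨hwl, hwu⟩ := abs_le.1 hwabs.le
  obtain ⟨j, hj⟩ := hw4
  obtain ⟨i₁, hi₁⟩ : (4 : ℤ) ∣ 2 * q + 1 + x - y - w := by omega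
  obtain ⟨i₂, hi₂⟩ : (4 : ℤ) ∣ 2 * q + 1 - x + y - w := by omega
  obtain ⟨i₃, hi₃⟩ : (4 : ℤ) ∣ 2 * q + 1 - x - y + w := by omega
  obtain ⟨s, rfl⟩ := Int.eq_ofNat_of_zero_le (show 0 ≤ j by omega)
  obtain ⟨t, rfl⟩ := Int.eq_ofNat_of_zero_le (show 0 ≤ i₁ by omega)
  obtain ⟨u, rfl⟩ := Int.eq_ofNat_of_zero_le (show 0 ≤ i₂ by omega)
  obtain ⟨v, rfl⟩ := Int.eq_ofNat_of_zero_le (show 0 ≤ i₃ by omega)
  refine ⟨s, t, u, v, by omega, ?_⟩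
  have : 16 * ((s : ℤ) ^ 2 + t ^ 2 + u ^ 2 + v ^ 2) = 16 * (2 * p + 1) := by
    calc 16 * ((s : ℤ) ^ 2 + t ^ 2 + u ^ 2 + v ^ 2)
        = (4 * (s : ℤ)) ^ 2 + (4 * (t : ℤ)) ^ 2 + (4 * (u : ℤ)) ^ 2 + (4 * (v : ℤ)) ^ 2 := by ring
      _ = 4 * (2 * q + 1) ^ 2 + 4 * (x ^ 2 + y ^ 2 + w ^ 2) := by
          rw [← hj, ← hi₁, ← hi₂, ← hi₃]
          ring
      _ = 16 * (2 * p + 1) := by rw [hw, ← e, hsq]; linarith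
  linarith

end FA.PolygonalNumbers

end
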