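import Mathlib.Tactic

/-!
# Polygonal numbers, and the small ones

The number `polygonal m k` is the `k`-th polygonal number of order `m + 2`. A table of four-tuples,
checked in the kernel, covers every `n < 120 m` for all `m ≥ 3` at once: both `m A + B` and the
gaps between successive entries are linear in `m`.
-/

set_option autoImplicit false

noncomputable section

namespace FA.PolygonalNumbers

/-- The `k`-th polygonal number of order `m + 2`. -/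
def polygonal (m k : ℕ) : ℕ := m * (k * (k - 1) / 2) + k

@[simp] theorem polygonal_zero (m : ℕ) : polygonal m 0 = 0 := by simp [polygonal]

@[simp] theorem polygonal_one (m : ℕ) : polygonal m 1 = 1 := by simp [polygonal]

theorem two_mul_polygonal (m k : ℕ) :
    2 * (polygonal m k : ℤ) = m * ((k : ℤ) ^ 2 - k) + 2 * k := by
  obtain _ | j := k
  · simp
  obtain ⟨l, hl⟩ := Nat.even_mul_succ_self j
  rw [polygonal, show (j + 1) * (j + 1 - 1) / 2 = l by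
    rw [Nat.add_sub_cancel, mul_comm, hl]; omega]
  have : ((j : ℤ) * (j + 1)) = 2 * l := by
    exact_mod_cast (by omega : j * (j + 1) = 2 * l)
  push_cast
  linear_combination -(m : ℤ) * this

/-- Four polygonal numbers and at most `r` ones. -/
def FourAndOnes (m n r : ℕ) : Prop :=
  ∃ a b c d i : ℕ, i ≤ r ∧ n = polygonal m a + polygonal m b + polygonal m c + polygonal m d + i

/-- A four-tuple. -/
abbrev Quad := ℕ × ℕ × ℕ × ℕ

/-- The coefficient of `m`. -/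
def quadA (q : Quad) : ℕ :=
  q.1 * (q.1 - 1) / 2 + q.2.1 * (q.2.1 - 1) / 2 + q.2.2.1 * (q.2.2.1 - 1) / 2 +
    q.2.2.2 * (q.2.2.2 - 1) / 2

/-- The constant term. -/
def quadB (q : Quad) : ℕ := q.1 + q.2.1 + q.2.2.1 + q.2.2.2

/-- Successive entries leave no gap for any `m ≥ 3`. -/
def linked : List Quad → Bool
  | q :: q' :: l => decide (quadA q' ≤ quadA q + 1) &&
      decide (3 * quadA q' + quadB q' + 1 ≤ 3 * quadA q + quadB q + 3) && linked (q' :: l)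
  | _ => true

/-- The table. -/
def table : List Quad :=
  [
  (0, 0, 0, 0), (0, 0, 1, 1), (1, 1, 1, 1), (0, 0, 1, 2), (1, 1, 1, 2), (0, 0, 2, 2),
  (0, 0, 0, 3), (0, 1, 1, 3), (1, 2, 2, 2), (0, 1, 2, 3), (2, 2, 2, 2), (0, 2, 2, 3),
  (0, 0, 3, 3), (1, 1, 3, 3), (0, 1, 2, 4), (1, 2, 3, 3), (0, 2, 2, 4), (0, 0, 3, 4),
  (0, 0, 1, 5), (1, 1, 1, 5), (1, 2, 3, 4), (1, 1, 2, 5), (2, 2, 3, 4), (0, 3, 3, 4),
  (0, 1, 3, 5), (1, 2, 4, 4), (0, 2, 3, 5), (1, 1, 1, 6), (0, 3, 4, 4), (3, 3, 3, 4),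
  (1, 3, 3, 5), (0, 2, 4, 5), (0, 1, 3, 6), (0, 4, 4, 4), (3, 3, 4, 4), (1, 3, 4, 5),
  (1, 1, 5, 5), (0, 1, 4, 6), (1, 2, 5, 5), (3, 4, 4, 4), (1, 4, 4, 5), (0, 3, 5, 5),
  (1, 1, 3, 7), (1, 3, 4, 6), (4, 4, 4, 4), (2, 3, 4, 6), (0, 4, 5, 5), (0, 3, 3, 7),
  (1, 4, 4, 6), (0, 3, 5, 6), (2, 4, 4, 6), (2, 2, 4, 7), (3, 4, 5, 5), (1, 5, 5, 5),
  (0, 4, 5, 6), (2, 5, 5, 5), (2, 2, 6, 6), (4, 4, 5, 5), (3, 3, 4, 7), (1, 3, 5, 7),
  (3, 4, 5, 6), (1, 5, 5, 6), (0, 4, 6, 6), (2, 5, 5, 6), (1, 4, 5, 7), (4, 4, 5, 6),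
  (2, 4, 5, 7), (1, 3, 6, 7), (3, 4, 6, 6), (1, 5, 6, 6), (5, 5, 5, 5), (2, 5, 6, 6),
  (1, 4, 6, 7), (4, 4, 6, 6), (2, 4, 6, 7), (3, 5, 6, 6), (3, 3, 5, 8), (0, 6, 6, 6),
  (3, 4, 6, 7), (1, 5, 6, 7), (4, 5, 6, 6), (2, 5, 6, 7), (1, 4, 7, 7), (3, 6, 6, 6),
  (2, 4, 7, 7), (2, 3, 5, 9), (4, 4, 5, 8), (1, 6, 6, 7), (4, 6, 6, 6), (2, 6, 6, 7),
  (1, 5, 6, 8), (1, 3, 6, 9), (2, 5, 6, 8), (1, 4, 7, 8), (3, 5, 7, 7), (2, 4, 7, 8),
  (0, 6, 7, 7), (1, 2, 7, 9), (1, 6, 6, 8), (4, 5, 7, 7), (2, 6, 6, 8), (2, 3, 8, 8),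
  (0, 5, 6, 9), (2, 3, 3, 11), (5, 6, 6, 7), (3, 5, 7, 8), (1, 7, 7, 7), (0, 6, 7, 8),
  (0, 5, 5, 10), (1, 1, 7, 10), (0, 5, 8, 8), (3, 4, 7, 9), (6, 6, 6, 7), (3, 6, 7, 8),
  (2, 5, 7, 9), (5, 6, 6, 8), (3, 5, 8, 8), (1, 7, 7, 8), (4, 6, 7, 8), (2, 7, 7, 8),
  (1, 6, 7, 9), (4, 5, 8, 8), (2, 6, 7, 9), (5, 7, 7, 7), (3, 6, 8, 8), (2, 5, 8, 9),
  (1, 5, 7, 10), (4, 4, 8, 9), (1, 7, 8, 8), (0, 7, 7, 9), (2, 7, 8, 8), (1, 6, 8, 9),
  (1, 5, 6, 11), (2, 6, 8, 9), (1, 6, 7, 10), (3, 7, 7, 9), (2, 6, 7, 10), (1, 5, 8, 10),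
  (1, 3, 9, 10), (1, 8, 8, 8), (0, 7, 8, 9), (0, 5, 7, 11), (0, 4, 6, 12), (0, 2, 7, 12),
  (0, 2, 5, 13), (1, 6, 8, 10), (3, 7, 8, 9), (2, 6, 8, 10), (2, 4, 8, 11), (0, 5, 9, 10),
  (1, 2, 9, 11), (4, 7, 8, 9), (4, 5, 7, 11), (6, 7, 8, 8), (4, 6, 9, 9), (2, 7, 9, 9),
  (5, 8, 8, 8), (3, 8, 8, 9), (3, 5, 8, 11), (1, 7, 7, 11), (3, 7, 8, 10), (2, 7, 7, 11),
  (4, 8, 8, 9), (3, 6, 9, 10), (6, 8, 8, 8), (4, 7, 8, 10), (2, 8, 9, 9), (1, 7, 9, 10),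
  (4, 6, 9, 10), (2, 7, 9, 10), (5, 7, 9, 9), (3, 8, 8, 10), (2, 7, 8, 11), (1, 6, 9, 11),
  (4, 5, 10, 10), (7, 7, 8, 9), (4, 8, 8, 10), (3, 6, 10, 10), (1, 8, 9, 10), (1, 5, 10, 11),
  (2, 8, 9, 10), (1, 7, 10, 10), (0, 7, 9, 11), (1, 3, 11, 11), (0, 3, 10, 12), (0, 2, 9, 13),
  (1, 2, 5, 15), (0, 5, 6, 14), (1, 4, 4, 15), (0, 3, 5, 15), (0, 0, 8, 14), (0, 0, 0, 16)  ]

theorem linked_table : linked table = true := by decide

theorem table_last : (table.getLast?).map quadA = some 120 := by decide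

theorem fourAndOnes_of_linked {m : ℕ} (hm : 3 ≤ m) :
    ∀ (l : List Quad) (q : Quad), linked (q :: l) = true → ∀ n : ℕ,
      m * quadA q + quadB q ≤ n → n < m * quadA ((q :: l).getLast (by simp)) →
      FourAndOnes m n (m - 2) := by
  intro l
  induction l with
  | nil =>
    intro q _ n h1 h2
    simp only [List.getLast_singleton] at h2
    omega
  | cons q' l ih =>
    intro q hl n h1 h2
    simp only [linked, Bool.and_eq_true, decide_eq_true_eq] at hl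
    obtain ⟨⟨hA, hB⟩, hl'⟩ := hl
    by_cases hn : n ≤ m * quadA q + quadB q + (m - 2)
    · refine ⟨q.1, q.2.1, q.2.2.1, q.2.2.2, n - (m * quadA q + quadB q), by omega, ?_⟩
      have e : m * quadA q + quadB q =
          polygonal m q.1 + polygonal m q.2.1 + polygonal m q.2.2.1 + polygonal m q.2.2.2 := by
        simp only [quadA, quadB, polygonal]
        ring
      omega
    · refine ih q' hl' n ?_ (by rwa [List.getLast_cons (by simp)] at h2)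
      obtain ⟨j, rfl⟩ : ∃ j, m = 3 + j := ⟨m - 3, by omega⟩
      have h3 := Nat.mul_le_mul_left j hA
      simp only [add_mul, mul_add, mul_one] at hn h3 ⊢
      omega

/-- **The small numbers.** -/
theorem fourAndOnes_small {m n : ℕ} (hm : 3 ≤ m) (hn : n < 120 * m) : FourAndOnes m n (m - 2) := by
  obtain ⟨q, l, hql⟩ : ∃ q l, table = q :: l := ⟨_, _, rfl⟩
  have hlast : quadA ((q :: l).getLast (by simp)) = 120 := by
    have h := table_last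
    rw [hql, List.getLast?_eq_some_getLast (l := q :: l) (by simp), Option.map_some] at h
    exact Option.some.inj h
  have hfirst : quadA q = 0 ∧ quadB q = 0 := by
    obtain ⟨rfl, -⟩ := List.cons.inj hql
    decide
  refine fourAndOnes_of_linked hm l q (hql ▸ linked_table) n ?_ ?_
  · rw [hfirst.1, hfirst.2]
    omega
  · rw [hlast, mul_comm]
    exact hn

end FA.PolygonalNumbers

end
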