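import Fermat.Agent.PolygonalNumbers.CauchyLemma
import Fermat.Agent.PolygonalNumbers.Small
import Mathlib.NumberTheory.SumFourSquares

/-!
# Cauchy's polygonal number theorem

For `n ≥ 120 m` an odd `b` is found just above the root of `m (b ^ 2 - b + 4) = 6 n`, so that
Cauchy's lemma applies to `b` and to the `a` it determines (Nathanson's proof).
-/

set_option autoImplicit false

noncomputable section

namespace FA.PolygonalNumbers

theorem representation {m n r q : ℕ} {i : ℕ} (hm : 3 ≤ m) (hr : r < m)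
    (hdiv : n = m * q + (2 * i + 1) + r) (hlo : 6 * n < m * (4 * i ^ 2 + 2 * i + 4))
    (hhi : 3 * m * (2 * i + 1) ^ 2 + 24 * m ≤ 24 * n + 4 * m * (2 * i + 1)) :
    FourAndOnes m n r := by
  set b : ℤ := 2 * (i : ℤ) + 1 with hb
  set a : ℤ := 2 * (q : ℤ) + b with ha
  have hdiv' : (n : ℤ) = m * q + b + r := by rw [hdiv, hb]; push_cast; ring
  have hlo' : 6 * (n : ℤ) < m * (4 * (i : ℤ) ^ 2 + 2 * i + 4) := by exact_mod_cast hlo
  have hhi' : 3 * (m : ℤ) * b ^ 2 + 24 * m ≤ 24 * n + 4 * m * b := by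
    rw [hb]; exact_mod_cast hhi
  have hm0 : (3 : ℤ) ≤ m := by exact_mod_cast hm
  have hr' : (r : ℤ) < m := by exact_mod_cast hr
  have hb0 : 0 < b := by positivity
  have hbm : 3 * b ≤ m * b := mul_le_mul_of_nonneg_right hm0 hb0.le
  have h1 : b ^ 2 < 4 * a := by
    refine lt_of_mul_lt_mul_left (a := 3 * (m : ℤ)) ?_ (by positivity)
    rw [ha]
    linarith
  have h2 : 3 * a < b ^ 2 + 2 * b + 4 := by
    refine lt_of_mul_lt_mul_left (a := (m : ℤ)) ?_ (by positivity)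
    rw [ha]
    have e : b ^ 2 - b + 4 = 4 * (i : ℤ) ^ 2 + 2 * i + 4 := by rw [hb]; ring
    rw [← e] at hlo'
    have := (Nat.cast_nonneg r : (0 : ℤ) ≤ r)
    linarith
  obtain ⟨s, t, u, v, hs, hq⟩ := cauchy_lemma (a := a) (b := b)
    ⟨q + i, by rw [ha, hb]; ring⟩ ⟨i, hb⟩ hb0 h1 h2
  refine ⟨s, t, u, v, r, le_rfl, ?_⟩
  have key : 2 * ((polygonal m s + polygonal m t + polygonal m u + polygonal m v + r : ℕ) : ℤ) =
      2 * (n : ℤ) := by
    push_cast
    simp only [mul_add, two_mul_polygonal]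
    rw [hdiv']
    linear_combination (m : ℤ) * hq + (2 - (m : ℤ)) * hs + (m : ℤ) * ha
  omega

/-- The least admissible index. -/
theorem exists_index {m : ℕ} (hm : 0 < m) (n J : ℕ) (hJ : m * (4 * J ^ 2 + 2 * J + 4) ≤ 6 * n) :
    ∃ j, J ≤ j ∧ m * (4 * j ^ 2 + 2 * j + 4) ≤ 6 * n ∧
      6 * n < m * (4 * (j + 1) ^ 2 + 2 * (j + 1) + 4) := by
  have hex : ∃ k, 6 * n < m * (4 * k ^ 2 + 2 * k + 4) := by
    refine ⟨6 * n + 1, ?_⟩
    calc 6 * n < 1 * (4 * (6 * n + 1) ^ 2 + 2 * (6 * n + 1) + 4) := by nlinarith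
      _ ≤ _ := Nat.mul_le_mul_right _ hm
  have hmono : ∀ {k l : ℕ}, k ≤ l → m * (4 * k ^ 2 + 2 * k + 4) ≤ m * (4 * l ^ 2 + 2 * l + 4) :=
    fun h => by gcongr
  have hspec := Nat.find_spec hex
  obtain ⟨j, hj⟩ : ∃ j, Nat.find hex = j + 1 := by
    refine Nat.exists_eq_succ_of_ne_zero fun h0 => ?_
    rw [h0] at hspec
    exact absurd (lt_of_lt_of_le hspec (hmono (Nat.zero_le J))) (by omega)
  rw [hj] at hspec
  have hnot := Nat.find_min hex (by omega : j < Nat.find hex)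
  refine ⟨j, ?_, not_lt.1 hnot, hspec⟩
  by_contra! h
  exact absurd (lt_of_lt_of_le hspec (hmono (by omega : j + 1 ≤ J))) (by omega)

/-- The upper condition in a window after `j`. -/
theorem window {m n j i : ℕ} (hj : m * (4 * j ^ 2 + 2 * j + 4) ≤ 6 * n) {w : ℕ} (hi : i ≤ j + w)
    (hw : 12 * w ^ 2 + 24 * j * w + 4 * w + 7 ≤ 4 * j ^ 2 + 4 * j) :
    3 * m * (2 * i + 1) ^ 2 + 24 * m ≤ 24 * n + 4 * m * (2 * i + 1) := by
  have h0 : (3 * (2 * (i : ℤ) + 1) ^ 2 + 24 - 4 * (2 * (i : ℤ) + 1)) ≤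
      4 * (4 * (j : ℤ) ^ 2 + 2 * j + 4) := by
    have hi' : (i : ℤ) ≤ j + w := by exact_mod_cast hi
    have hw' : 12 * (w : ℤ) ^ 2 + 24 * j * w + 4 * w + 7 ≤ 4 * (j : ℤ) ^ 2 + 4 * j := by
      exact_mod_cast hw
    nlinarith [mul_nonneg (sub_nonneg.2 hi') (by positivity : (0 : ℤ) ≤ 3 * ((i : ℤ) + j + w) + 1)]
  have h1 := mul_le_mul_of_nonneg_left h0 (Nat.cast_nonneg (α := ℤ) m)
  have hj' : (m : ℤ) * (4 * (j : ℤ) ^ 2 + 2 * j + 4) ≤ 6 * n := by exact_mod_cast hj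
  zify
  linarith

theorem quotient_exists {m n b r : ℕ} (hle : b + r ≤ n) (h : (n - b - r) % m = 0) :
    ∃ q, n = m * q + b + r :=
  ⟨(n - b - r) / m, by have := Nat.div_add_mod (n - b - r) m; omega⟩

/-- **The large numbers.** -/
theorem fourAndOnes_large {m n : ℕ} (hm : 3 ≤ m) (hn : 120 * m ≤ n) :
    FourAndOnes m n (m - 2) := by
  obtain ⟨j, hj13, hj, hlo⟩ := exists_index (by omega : 0 < m) n 13 (by
    rw [mul_comm]; linarith)
  have hw : 12 * 2 ^ 2 + 24 * j * 2 + 4 * 2 + 7 ≤ 4 * j ^ 2 + 4 * j := by nlinarith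
  have hbn : 2 * (j + 2) + 1 + m ≤ n := by
    have h3 := Nat.mul_le_mul_right (4 * j ^ 2 + 2 * j + 4) hm
    nlinarith
  set s := (n - (2 * (j + 1) + 1)) % m with hs
  have hsm : s < m := Nat.mod_lt _ (by omega)
  have hdm := Nat.div_add_mod (n - (2 * (j + 1) + 1)) m
  rw [← hs] at hdm
  rcases le_or_gt s (m - 2) with hsle | hsgt
  · have hrep := representation (q := (n - (2 * (j + 1) + 1)) / m) (i := j + 1) hm
      (by omega : s < m) (by omega) hlo (window hj (by omega : j + 1 ≤ j + 2) hw)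
    obtain ⟨a, b, c, d, i, hi, e⟩ := hrep
    exact ⟨a, b, c, d, i, hi.trans hsle, e⟩
  · have hrep := representation (q := (n - (2 * (j + 1) + 1)) / m) (i := j + 2) hm
      (by omega : s - 2 < m) (by omega) (hlo.trans_le (by gcongr <;> omega))
      (window hj le_rfl hw)
    obtain ⟨a, b, c, d, i, hi, e⟩ := hrep
    exact ⟨a, b, c, d, i, by omega, e⟩

/-- **Cauchy's theorem in sharp form.** -/
theorem fourAndOnes_all {m : ℕ} (hm : 3 ≤ m) (n : ℕ) : FourAndOnes m n (m - 2) :=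
  (lt_or_ge n (120 * m)).elim (fourAndOnes_small hm) (fourAndOnes_large hm)

/-- **Legendre's refinement.** -/
theorem fourAndOnes_legendre {m n : ℕ} (hm : 3 ≤ m) (hn : m * (7 * m + 13) ^ 2 ≤ n) :
    (Odd m → FourAndOnes m n 0) ∧ FourAndOnes m n 1 := by
  obtain ⟨j, hjJ, hj, hlo⟩ := exists_index (by omega : 0 < m) n (7 * m + 13) (by nlinarith)
  have hw : 12 * (m + 1) ^ 2 + 24 * j * (m + 1) + 4 * (m + 1) + 7 ≤ 4 * j ^ 2 + 4 * j := by
    nlinarith
  have hbn : 2 * (j + (m + 1)) + 2 ≤ n := by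
    have h3 := Nat.mul_le_mul_right (4 * j ^ 2 + 2 * j + 4) hm
    nlinarith
  -- an index in the window with the residue `x`
  have pick : ∀ x : ℤ, ∃ i : ℕ, j + 1 ≤ i ∧ i ≤ j + (m + 1) ∧ (m : ℤ) ∣ (i : ℤ) - x := by
    intro x
    obtain ⟨k, hk⟩ := Int.eq_ofNat_of_zero_le
      (Int.emod_nonneg (x - (j + 1)) (by omega : (m : ℤ) ≠ 0))
    have hk' : k < m := by
      have := Int.emod_lt_of_pos (x - ((j : ℤ) + 1)) (by omega : (0 : ℤ) < m)
      omega
    refine ⟨j + 1 + k, by omega, by omega, ?_⟩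
    have := Int.dvd_self_sub_emod (x := x - ((j : ℤ) + 1)) (m := (m : ℤ))
    rw [hk] at this
    obtain ⟨t, ht⟩ := this
    exact ⟨-t, by push_cast; linarith⟩
  have use_index : ∀ (i r : ℕ), j + 1 ≤ i → i ≤ j + (m + 1) → r < m → r ≤ 1 →
      (m : ℤ) ∣ (n : ℤ) - (2 * i + 1) - r → FourAndOnes m n r := by
    intro i r h1 h2 hr hr1 hdvd
    obtain ⟨q, hq⟩ := quotient_exists (m := m) (n := n) (b := 2 * i + 1) (r := r) (by omega) (by
      refine Nat.mod_eq_zero_of_dvd ?_ |>.trans rfl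
      rw [← Int.natCast_dvd_natCast]
      rw [Nat.cast_sub (by omega), Nat.cast_sub (by omega)]
      push_cast
      exact hdvd)
    exact representation hm hr hq
      (hlo.trans_le (by gcongr)) (window hj h2 hw)
  have hodd : Odd m → FourAndOnes m n 0 := by
    rintro ⟨l, rfl⟩
    obtain ⟨i, hi1, hi2, t, ht⟩ := pick (((n : ℤ) - 1) * (l + 1))
    refine use_index i 0 hi1 hi2 (by omega) (by omega) ⟨-((n : ℤ) - 1) - 2 * t, ?_⟩
    push_cast at ht ⊢
    linear_combination -2 * ht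
  refine ⟨hodd, ?_⟩
  rcases Nat.even_or_odd m with ⟨l, rfl⟩ | hm'
  · rcases Nat.even_or_odd' n with ⟨x, rfl | rfl⟩
    · obtain ⟨i, hi1, hi2, t, ht⟩ := pick ((x : ℤ) - 1)
      refine use_index i 1 hi1 hi2 (by omega) le_rfl ⟨-2 * t, ?_⟩
      push_cast at ht ⊢
      linear_combination -2 * ht
    · obtain ⟨i, hi1, hi2, t, ht⟩ := pick (x : ℤ)
      obtain ⟨a, b, c, d, r, hr, e⟩ :=
        use_index i 0 hi1 hi2 (by omega) (by omega) ⟨-2 * t, by
          push_cast at ht ⊢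
          linear_combination -2 * ht⟩
      exact ⟨a, b, c, d, r, by omega, e⟩
  · obtain ⟨a, b, c, d, r, hr, e⟩ := hodd hm'
    exact ⟨a, b, c, d, r, by omega, e⟩

/-- As a list. -/
theorem FourAndOnes.exists_list {m n r : ℕ} (h : FourAndOnes m n r) :
    ∃ l : List ℕ, l.length ≤ 4 + r ∧ (l.map (polygonal m)).sum = n := by
  obtain ⟨a, b, c, d, i, hi, e⟩ := h
  refine ⟨[a, b, c, d] ++ List.replicate i 1, by simp; omega, ?_⟩
  simp [e, List.sum_replicate]
  ring

/-- **Cauchy's polygonal number theorem.** -/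
theorem exists_sum_polygonal {m : ℕ} (hm : 1 ≤ m) (n : ℕ) :
    ∃ f : Fin (m + 2) → ℕ, ∑ i, polygonal m (f i) = n := by
  suffices h : ∃ l : List ℕ, l.length ≤ m + 2 ∧ (l.map (polygonal m)).sum = n by
    obtain ⟨l, hl, hsum⟩ := h
    set l' := l ++ List.replicate (m + 2 - l.length) 0 with hl'
    have hlen : l'.length = m + 2 := by simp [hl']; omega
    refine ⟨fun i => l'.get (i.cast hlen.symm), ?_⟩
    refine (Fintype.sum_equiv (finCongr hlen.symm) _ (fun i => polygonal m (l'.get i))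
      fun i => rfl).trans ?_
    rw [← List.sum_ofFn, show List.ofFn (fun i => polygonal m (l'.get i)) =
      l'.map (polygonal m) from List.ofFn_getElem_eq_map l' (polygonal m)]
    simp [hl', hsum]
  rcases (by omega : m = 1 ∨ m = 2 ∨ 3 ≤ m) with rfl | rfl | h3
  · obtain ⟨i, j, k, e⟩ := FA.Summary.three_triangular_numbers n
    refine ⟨[i, j, k], by simp, ?_⟩
    have key : ∀ t : ℕ, polygonal 1 t = t * (t + 1) / 2 := fun t => by
      obtain _ | s := t
      · simp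
      obtain ⟨l, hl⟩ := Nat.even_mul_succ_self s
      rw [polygonal, one_mul, Nat.add_sub_cancel, show (s + 1) * (s + 1 + 1) =
        (s * (s + 1)) + 2 * (s + 1) by ring, show (s + 1) * s = s * (s + 1) by ring, hl]
      omega
    simp [key, e]
    ring
  · obtain ⟨a, b, c, d, e⟩ := Nat.sum_four_squares n
    have key : ∀ t : ℕ, polygonal 2 t = t ^ 2 := fun t => by
      obtain _ | s := t
      · simp
      obtain ⟨l, hl⟩ := Nat.even_mul_succ_self s
      rw [polygonal, Nat.add_sub_cancel, show (s + 1) * s = s * (s + 1) by ring, hl,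
        show (s + 1) ^ 2 = s * (s + 1) + (s + 1) by ring, hl]
      omega
    refine ⟨[a, b, c, d], by simp, ?_⟩
    simp [key, ← e]
    ring
  · obtain ⟨l, hl, e⟩ := (fourAndOnes_all h3 n).exists_list
    exact ⟨l, by omega, e⟩

end FA.PolygonalNumbers

end
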